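/-
Cluster A (F3), work package A4b (helper42): semilinear automorphisms commute with
pull-back and push-forward of divisors along a field embedding that they intertwine.
General (any fields `K`, `F`, `F'`), sorry-free.
-/
import Fermat.Prelude.Def_AlgebraicCurve_Correspondence

set_option autoImplicit false

noncomputable section

namespace Fermat.Agent.F3G

open AlgebraicCurve
open scoped Pointwise

variable {K F F' : Type*} [Field K] [Field F] [Field F'] [Algebra K F] [Algebra K F']

section PlaceLevel

variable (φ : F →ₐ[K] F') (hφ : φ.toRingHom.IsIntegral)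
  {g : SemilinearAut K F} {g' : SemilinearAut K F'}

theorem mem_restrictAlong_iff (w : Place K F') (x : F) :
    x ∈ (w.restrictAlong φ hφ).toValuationSubring ↔ φ x ∈ w.toValuationSubring :=
  Iff.rfl

theorem mem_smul_place_iff (g : SemilinearAut K F) (v : Place K F) (x : F) :
    x ∈ (g • v).toValuationSubring ↔ g⁻¹ • x ∈ v.toValuationSubring := by
  rw [SemilinearAut.smul_toValuationSubring]
  exact ValuationSubring.mem_pointwise_smul_iff_inv_smul_mem

/-- Restriction of places commutes with intertwined semilinear automorphisms. -/
theorem restrictAlong_smul (h : SemilinearAut.IntertwinesAlong φ.toRingHom g g')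
    (w : Place K F') :
    (g' • w).restrictAlong φ hφ = g • (w.restrictAlong φ hφ) := by
  apply Place.ext
  ext x
  rw [mem_restrictAlong_iff, mem_smul_place_iff, mem_smul_place_iff, mem_restrictAlong_iff]
  have hx : g'⁻¹ • φ x = φ (g⁻¹ • x) := h.inv x
  rw [hx]

theorem ord_smul_map (h : SemilinearAut.IntertwinesAlong φ.toRingHom g g')
    (w : Place K F') (f : F) :
    (g' • w).ord (φ (g • f)) = w.ord (φ f) := by
  have hx : g' • φ f = φ (g • f) := h f
  rw [← hx]
  exact SemilinearAut.ord_smul g' w (φ f)

/-- The ramification index is invariant under intertwined semilinear automorphisms. -/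
theorem ramificationIndexAlong_smul (h : SemilinearAut.IntertwinesAlong φ.toRingHom g g')
    (w : Place K F') :
    (g' • w).ramificationIndexAlong φ = w.ramificationIndexAlong φ := by
  letI := algebraAlong φ
  show Place.ramificationIndex (F := F) (g' • w) = Place.ramificationIndex (F := F) w
  unfold Place.ramificationIndex
  congr 1
  ext n
  simp only [Set.mem_ofPred_eq]
  constructor
  · rintro ⟨hn, f, hf, hfn⟩
    refine ⟨hn, g⁻¹ • f, by simpa using hf, ?_⟩
    rw [← hfn]
    have := ord_smul_map φ h w (g⁻¹ • f)
    rw [smul_inv_smul] at this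
    exact this.symm
  · rintro ⟨hn, f, hf, hfn⟩
    refine ⟨hn, g • f, by simpa using hf, ?_⟩
    rw [← hfn]
    exact ord_smul_map φ h w f

/-- The ring isomorphism `x ↦ g • x` between the valuation rings of `w|_F` and `(g' • w)|_F`. -/
def restrictSMulEquiv (h : SemilinearAut.IntertwinesAlong φ.toRingHom g g') (w : Place K F') :
    (w.restrictAlong φ hφ).toValuationSubring ≃+*
      ((g' • w).restrictAlong φ hφ).toValuationSubring where
  toFun x := ⟨g • (x : F), by
    rw [mem_restrictAlong_iff, mem_smul_place_iff]
    have hx : g'⁻¹ • φ (g • (x : F)) = φ (g⁻¹ • g • (x : F)) := h.inv _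
    rw [hx, inv_smul_smul]
    exact x.2⟩
  invFun y := ⟨g⁻¹ • (y : F), by
    rw [mem_restrictAlong_iff]
    have hy : g'⁻¹ • φ (y : F) = φ (g⁻¹ • (y : F)) := h.inv _
    rw [← hy]
    exact (mem_smul_place_iff g' w _).mp y.2⟩
  left_inv x := Subtype.ext (inv_smul_smul g (x : F))
  right_inv y := Subtype.ext (smul_inv_smul g (y : F))
  map_mul' x y := Subtype.ext (smul_mul' g (x : F) (y : F))
  map_add' x y := Subtype.ext (smul_add g (x : F) (y : F))

@[simp]
theorem coe_restrictSMulEquiv (h : SemilinearAut.IntertwinesAlong φ.toRingHom g g')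
    (w : Place K F') (x : (w.restrictAlong φ hφ).toValuationSubring) :
    ((restrictSMulEquiv φ hφ h w x : ((g' • w).restrictAlong φ hφ).toValuationSubring) : F)
      = g • (x : F) :=
  rfl

/-- The inertia degree is invariant under intertwined semilinear automorphisms. -/
theorem inertiaDegAlong_smul (h : SemilinearAut.IntertwinesAlong φ.toRingHom g g')
    (w : Place K F') :
    (g' • w).inertiaDegAlong φ hφ = w.inertiaDegAlong φ hφ := by
  letI := algebraAlong φ
  haveI := isScalarTower_along φ
  haveI := isIntegral_along φ hφ
  show Module.finrank ((g' • w).restrict F).ResidueField (g' • w).ResidueField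
    = Module.finrank (w.restrict F).ResidueField w.ResidueField
  symm
  let e : (w.restrict F).toValuationSubring ≃+* ((g' • w).restrict F).toValuationSubring :=
    restrictSMulEquiv φ hφ h w
  have he : ∀ x : (w.restrict F).toValuationSubring, ((e x : _) : F) = g • (x : F) :=
    fun _ => rfl
  refine Algebra.finrank_eq_of_equiv_equiv
    (IsLocalRing.ResidueField.mapEquiv e)
    (SemilinearAut.smulResidueRingEquiv g' w) ?_
  refine RingHom.ext fun a => ?_
  obtain ⟨x, rfl⟩ := IsLocalRing.residue_surjective a
  show Place.restrictResidueMap F (g' • w)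
      (IsLocalRing.ResidueField.mapEquiv e (IsLocalRing.residue _ x))
    = IsLocalRing.ResidueField.mapEquiv (SemilinearAut.smulValuationSubringEquiv g' w.toValuationSubring)
        (Place.restrictResidueMap F w (IsLocalRing.residue _ x))
  rw [IsLocalRing.ResidueField.mapEquiv_apply, IsLocalRing.ResidueField.map_residue,
    Place.restrictResidueMap_residue, Place.restrictResidueMap_residue,
    IsLocalRing.ResidueField.mapEquiv_apply, IsLocalRing.ResidueField.map_residue]
  refine congrArg _ (Subtype.ext ?_)
  show φ ((e x : _) : F) = g' • φ (x : F)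
  rw [he]
  exact (h _).symm

end PlaceLevel

section DivisorLevel

variable (φ ψ : F →ₐ[K] F') (hφ : φ.toRingHom.IsIntegral) (hψ : ψ.toRingHom.IsIntegral)
  {g : SemilinearAut K F} {g' : SemilinearAut K F'}

/-- Push-forward of divisors commutes with intertwined semilinear automorphisms. -/
theorem pushforwardAlong_smul (h : SemilinearAut.IntertwinesAlong φ.toRingHom g g')
    (D : Divisor K F') :
    Divisor.pushforwardAlong φ hφ (g' • D) = g • Divisor.pushforwardAlong φ hφ D := by
  induction D using Finsupp.induction with
  | zero => rw [smul_zero, map_zero, smul_zero]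
  | single_add w n D _ _ ih =>
    rw [smul_add, map_add, map_add, smul_add, ih, SemilinearAut.smul_single,
      Divisor.pushforwardAlong_single, Divisor.pushforwardAlong_single,
      SemilinearAut.smul_single, restrictAlong_smul φ hφ h, inertiaDegAlong_smul φ hφ h]

variable [HasPrincipalDivisors K F']

/-- Pull-back of divisors commutes with intertwined semilinear automorphisms. -/
theorem pullbackAlong_smul (h : SemilinearAut.IntertwinesAlong φ.toRingHom g g')
    (D : Divisor K F) :
    Divisor.pullbackAlong φ hφ (g • D) = g' • Divisor.pullbackAlong φ hφ D := by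
  ext w
  rw [Divisor.pullbackAlong_apply, SemilinearAut.divisor_smul_apply,
    SemilinearAut.divisor_smul_apply, Divisor.pullbackAlong_apply,
    ramificationIndexAlong_smul φ h.inv, restrictAlong_smul φ hφ h.inv]

/-- A correspondence `ψ_* φ^*` commutes with semilinear automorphisms intertwined by both legs. -/
theorem divisor_correspondence_smul (h : SemilinearAut.IntertwinesAlong φ.toRingHom g g')
    (h' : SemilinearAut.IntertwinesAlong ψ.toRingHom g g') (D : Divisor K F) :
    Divisor.correspondence φ ψ hφ hψ (g • D) = g • Divisor.correspondence φ ψ hφ hψ D := by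
  rw [Divisor.correspondence_apply, Divisor.correspondence_apply,
    pullbackAlong_smul φ hφ h, pushforwardAlong_smul ψ hψ h']

/-- The induced endomorphism of `Pic⁰` commutes with the semilinear automorphisms. -/
theorem pic0_correspondence_smul (hFI : FundamentalIdentityAlong K φ hφ)
    (hfin : FiniteAlong K ψ) (hN : NormFormulaAlong K ψ hfin)
    (h : SemilinearAut.IntertwinesAlong φ.toRingHom g g')
    (h' : SemilinearAut.IntertwinesAlong ψ.toRingHom g g') (x : Pic0 K F) :
    Pic0.correspondence φ ψ hφ hψ hFI hfin hN (g • x)
      = g • Pic0.correspondence φ ψ hφ hψ hFI hfin hN x := by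
  obtain ⟨D, rfl⟩ := Pic0.mk_surjective x
  rw [SemilinearAut.pic0_smul_mk, Pic0.correspondence_mk, Pic0.correspondence_mk,
    SemilinearAut.pic0_smul_mk]
  refine congrArg Pic0.mk (Subtype.ext ?_)
  rw [Pic0.coe_degZeroCorrespondence, SemilinearAut.coe_degZeroSMulHom,
    SemilinearAut.coe_degZeroSMulHom, Pic0.coe_degZeroCorrespondence]
  exact divisor_correspondence_smul φ ψ hφ hψ h h' D

end DivisorLevel

end Fermat.Agent.F3G
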