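/-
Cluster A (F3), work package A4c (helper42): description of `T_ℓ` on divisors of functions.
If `n • D = div f` then `n • T_ℓ D = div (Norm_{F_{Nℓ}/F_N} (f(q^ℓ)))`, and the class of `T_ℓ D`
is `heckeOperatorAlong L N ℓ [D]`.  Sorry-free; consumes `HeckeInputsAlong` as a hypothesis.
-/
import Fermat.Prelude.Def_ModularCurve_HeckeModule

set_option autoImplicit false

noncomputable section

namespace Fermat.Agent.F3G

open ModularCurve AlgebraicCurve

section General

variable {K F F' : Type*} [Field K] [Field F] [Field F'] [Algebra K F] [Algebra K F']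

/-- The norm of the finite extension `F'/F` given by an embedding `ψ : F → F'`. -/
def normAlong (ψ : F →ₐ[K] F') : F' →* F :=
  letI := algebraAlong ψ
  Algebra.norm F

theorem normAlong_ne_zero (ψ : F →ₐ[K] F') (hfin : FiniteAlong K ψ) {f : F'} (hf : f ≠ 0) :
    normAlong ψ f ≠ 0 := by
  letI := algebraAlong ψ
  haveI : Module.Finite F F' := hfin
  exact Algebra.norm_ne_zero_iff.mpr hf

variable [HasPrincipalDivisors K F']
variable (φ ψ : F →ₐ[K] F') (hφ : φ.toRingHom.IsIntegral) (hψ : ψ.toRingHom.IsIntegral)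

theorem pullbackAlong_apply_eq_ord {f : F} {D : Divisor K F}
    (hD : ∀ v : Place K F, D v = v.ord f) (w : Place K F') :
    Divisor.pullbackAlong φ hφ D w = w.ord (φ f) := by
  rw [Divisor.pullbackAlong_apply, hD, ← Place.ord_restrictAlong]

/-- The correspondence `ψ_* φ^*` sends `div f` to `div (Norm_ψ (φ f))`. -/
theorem correspondence_apply_eq_ord_norm (hfin : FiniteAlong K ψ)
    (hN : NormFormulaAlong K ψ hfin) {f : F} (hf : f ≠ 0) {D : Divisor K F}
    (hD : ∀ v : Place K F, D v = v.ord f) (v : Place K F) :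
    Divisor.correspondence φ ψ hφ hψ D v = v.ord (normAlong ψ (φ f)) := by
  letI := algebraAlong ψ
  haveI := isScalarTower_along ψ
  haveI := isIntegral_along ψ hψ
  haveI : Module.Finite F F' := hfin
  have hφf : φ f ≠ 0 := by simpa using hf
  exact hN (φ f) hφf (Divisor.pullbackAlong φ hφ D)
    (fun w => pullbackAlong_apply_eq_ord φ hφ hD w) v

/-- Torsion form: if `n • D = div f` then `n • (ψ_* φ^* D) = div (Norm_ψ (φ f))`. -/
theorem zsmul_correspondence_apply_eq_ord_norm (hfin : FiniteAlong K ψ)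
    (hN : NormFormulaAlong K ψ hfin) {f : F} (hf : f ≠ 0) {D : Divisor K F} (n : ℤ)
    (hD : ∀ v : Place K F, n * D v = v.ord f) (v : Place K F) :
    n * Divisor.correspondence φ ψ hφ hψ D v = v.ord (normAlong ψ (φ f)) := by
  have h := correspondence_apply_eq_ord_norm φ ψ hφ hψ hfin hN hf (D := n • D)
    (fun v => by rw [Finsupp.smul_apply, smul_eq_mul, hD]) v
  rwa [map_zsmul, Finsupp.smul_apply, smul_eq_mul] at h

end General

section Modular

variable (L : Type*) [Field L] [Algebra ℚ L] (N ℓ : ℕ) [NeZero N] [NeZero ℓ]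

/-- The norm `F_{Nℓ} → F_N` along the inclusion `heckeAlphaBar`. -/
def heckeNorm :
    laurentBaseChange L (modularFunctionFieldFull (N * ℓ)) →*
      laurentBaseChange L (modularFunctionFieldFull N) :=
  normAlong (heckeAlphaBar L N ℓ)

/-- The function `T_ℓ f := Norm_{F_{Nℓ}/F_N} (f(q^ℓ))`. -/
def heckeFun :
    laurentBaseChange L (modularFunctionFieldFull N) →*
      laurentBaseChange L (modularFunctionFieldFull N) :=
  (heckeNorm L N ℓ).comp (heckeBetaBar L N ℓ : _ →* _)

variable {L N ℓ}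

theorem heckeFun_apply (f : laurentBaseChange L (modularFunctionFieldFull N)) :
    heckeFun L N ℓ f = heckeNorm L N ℓ (heckeBetaBar L N ℓ f) :=
  rfl

theorem heckeFun_ne_zero (h : HeckeInputsAlong L N ℓ)
    {f : laurentBaseChange L (modularFunctionFieldFull N)} (hf : f ≠ 0) :
    heckeFun L N ℓ f ≠ 0 := by
  obtain ⟨hα, hβ, hP, hfin, hFI, hN⟩ := h
  have hβf : heckeBetaBar L N ℓ f ≠ 0 := by simpa using hf
  exact normAlong_ne_zero _ hfin hβf

/-- **Norm description of `T_ℓ`**: for a degree-zero divisor `D` with `n • D = div f`, the class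
`T_ℓ [D]` is represented by a degree-zero divisor `E` with `n • E = div (T_ℓ f)`,
`T_ℓ f = Norm_{F_{Nℓ}/F_N} (f(q^ℓ))`. -/
theorem heckeOperatorAlong_mk_of_zsmul_eq_div (h : HeckeInputsAlong L N ℓ)
    (D : Divisor.degZero (K := L) (F := laurentBaseChange L (modularFunctionFieldFull N)))
    (n : ℤ) {f : laurentBaseChange L (modularFunctionFieldFull N)} (hf : f ≠ 0)
    (hD : ∀ v, n * (D : Divisor L _) v = v.ord f) :
    ∃ E : Divisor.degZero (K := L) (F := laurentBaseChange L (modularFunctionFieldFull N)),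
      heckeOperatorAlong L N ℓ (Pic0.mk D) = Pic0.mk E ∧
        ∀ v, n * (E : Divisor L _) v = v.ord (heckeFun L N ℓ f) := by
  obtain ⟨hα, hβ, hP, hfin, hFI, hN⟩ := h
  haveI := hP
  refine ⟨Pic0.degZeroCorrespondence (heckeBetaBar L N ℓ) (heckeAlphaBar L N ℓ) hβ hα hFI D,
    ?_, fun v => ?_⟩
  · rw [heckeOperatorAlong_eq hα hβ hFI hfin hN]
    rfl
  · exact zsmul_correspondence_apply_eq_ord_norm _ _ hβ hα hfin hN hf n hD v

/-- Every class killed by `n` is `[D]` with `n • D = div f` for some `f ≠ 0`. -/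
theorem exists_div_of_zsmul_eq_zero {K F : Type*} [Field K] [Field F] [Algebra K F]
    (n : ℤ) (x : Pic0 K F) (hx : n • x = 0) :
    ∃ (D : Divisor.degZero (K := K) (F := F)) (f : F), f ≠ 0 ∧ Pic0.mk D = x ∧
      ∀ v, n * (D : Divisor K F) v = v.ord f := by
  obtain ⟨D, rfl⟩ := Pic0.mk_surjective x
  have h1 : Pic0.mk (n • D) = 0 := by
    rw [← hx]
    exact map_zsmul (QuotientAddGroup.mk' _) n D
  have h2 : (n • D : Divisor.degZero (K := K) (F := F)) ∈
      (Divisor.principal (K := K) (F := F)).addSubgroupOf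
        (Divisor.degZero (K := K) (F := F)) :=
    (QuotientAddGroup.eq_zero_iff _).mp h1
  obtain ⟨f, hf, hDf⟩ := h2
  refine ⟨D, f, hf, rfl, fun v => ?_⟩
  have := hDf v
  simpa using this

end Modular

end Fermat.Agent.F3G
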